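import Mathlib
import Fermat.Agent.Lib.Cheb.SpecQ2

/-!
# CHEB-Q piece Q-DISJ: a rational prime has at most one Frobenius class

`theorem frobDisjoint : SpecQ.FrobDisjointStatement`.
If `P, P'` are primes of `𝓞 L` over `p` with trivial inertia and arithmetic Frobenius `g`, `h`,
then `P' = τ • P` for some `τ ∈ Gal(L/ℚ)`, `τ g τ⁻¹` is a Frobenius at `P'`, hence equals `h`.
-/

set_option autoImplicit false

open NumberField
open scoped Pointwise

namespace Fermat.Agent.Lib.Cheb.H993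

open Fermat.Agent.Lib.Cheb.Spec Fermat.Agent.Lib.Cheb.SpecQ

theorem under_eq_span_of_natCast_mem_h993 {L : Type} [Field L] [NumberField L]
    {p : ℕ} (hp : p.Prime) (P : Ideal (𝓞 L)) [P.IsPrime] (hpP : (p : 𝓞 L) ∈ P) :
    P.under ℤ = Ideal.span {(p : ℤ)} := by
  have hmax : (Ideal.span {(p : ℤ)}).IsMaximal :=
    (Ideal.span_singleton_prime (by exact_mod_cast hp.ne_zero)).mpr
      (Nat.prime_iff_prime_int.mp hp) |>.isMaximal (by
        simpa using (show (p : ℤ) ≠ 0 by exact_mod_cast hp.ne_zero))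
  have hle : Ideal.span {(p : ℤ)} ≤ P.under ℤ := by
    rw [Ideal.span_singleton_le_iff_mem, Ideal.under_def, Ideal.mem_comap]
    simpa using hpP
  have hne : P.under ℤ ≠ ⊤ := by
    have : (P.under ℤ).IsPrime := inferInstance
    exact this.ne_top
  exact (hmax.eq_of_le hne hle).symm

/-- **Q-DISJ** -/
theorem frobDisjoint : FrobDisjointStatement := by
  intro L _ _ _ g h p hg hh
  obtain ⟨hp, P, hP, hpP, -, hgP⟩ := hg
  obtain ⟨-, P', hP', hpP', hI', hhP'⟩ := hh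
  have hGG : IsGaloisGroup (L ≃ₐ[ℚ] L) ℤ (𝓞 L) :=
    IsGaloisGroup.of_isFractionRing (L ≃ₐ[ℚ] L) ℤ (𝓞 L) ℚ L
  haveI : Algebra.IsInvariant ℤ (𝓞 L) (L ≃ₐ[ℚ] L) := hGG.isInvariant
  haveI : SMulCommClass (L ≃ₐ[ℚ] L) ℤ (𝓞 L) := hGG.commutes
  have hunder : P.under ℤ = P'.under ℤ := by
    rw [under_eq_span_of_natCast_mem_h993 hp P hpP, under_eq_span_of_natCast_mem_h993 hp P' hpP']
  obtain ⟨τ, hτ⟩ := Algebra.IsInvariant.exists_smul_of_under_eq ℤ (𝓞 L) (L ≃ₐ[ℚ] L) P P' hunder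
  have hconj : IsArithFrobAt ℤ (τ * g * τ⁻¹) P' := by
    rw [hτ]
    exact hgP.conj τ
  have hin := hconj.mul_inv_mem_inertia hhP'
  have h1 : τ * g * τ⁻¹ * h⁻¹ = 1 := by
    apply hI'
    intro x
    exact hin x
  rw [isConj_iff]
  refine ⟨τ, ?_⟩
  exact mul_inv_eq_one.mp h1

end Fermat.Agent.Lib.Cheb.H993
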