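import Mathlib
import Fermat.Agent.Lib.Cheb.SpecQ2
import Fermat.Agent.Lib.Cheb.DensityBasic

/-!
# CHEB-Q piece Q-SET (glue):
`FrobDisjointStatement → ChebDensityFiniteStatement → ChebDensitySetStatement`

Strong induction on the finite set `C ⊆ Gal(L/ℚ)`: split off the conjugacy class of one element;
the Frobenius sets of different classes are disjoint, lower densities add up.
-/

set_option autoImplicit false

open NumberField

namespace Fermat.Agent.Lib.Cheb.H993

open Fermat.Agent.Lib.Cheb.Spec Fermat.Agent.Lib.Cheb.SpecQ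

theorem chebDensity_finset_h993 (hDisj : FrobDisjointStatement)
    (hFin : ChebDensityFiniteStatement)
    (L : Type) [Field L] [NumberField L] [IsGalois ℚ L] :
    ∀ (n : ℕ) (C : Finset (L ≃ₐ[ℚ] L)), C.card = n →
      HasLowerDensity {p | ∃ g ∈ C, p ∈ frobPrimes L g}
        ((C.card : ℝ) / (Nat.card (L ≃ₐ[ℚ] L) : ℝ)) := by
  classical
  intro n
  induction n using Nat.strong_induction_on with
  | _ n ih =>
    intro C hCn
    rcases Finset.eq_empty_or_nonempty C with rfl | ⟨g, hg⟩
    · have h0 : {p | ∃ g ∈ (∅ : Finset (L ≃ₐ[ℚ] L)), p ∈ frobPrimes L g} = (∅ : Set ℕ) := by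
        ext p
        simp
      rw [h0]
      simpa using hasLowerDensity_empty_zero
    · set C' : Finset (L ≃ₐ[ℚ] L) := C.filter (fun h => ¬ IsConj g h) with hC'
      set K : Finset (L ≃ₐ[ℚ] L) := C.filter (fun h => IsConj g h) with hK
      have hsplit : K.card + C'.card = C.card :=
        Finset.card_filter_add_card_filter_not (s := C) (fun h => IsConj g h)
      have hgK : g ∈ K := Finset.mem_filter.mpr ⟨hg, IsConj.refl g⟩
      have hKpos : 0 < K.card := Finset.card_pos.mpr ⟨g, hgK⟩
      have hlt : C'.card < n := by omega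
      have h1 := ih C'.card hlt C' rfl
      have h2 : HasLowerDensity (frobPrimes L g) (classDensity L g) := hFin L g
      have hdisj : Disjoint (frobPrimes L g) {p | ∃ h ∈ C', p ∈ frobPrimes L h} := by
        rw [Set.disjoint_left]
        rintro p hp ⟨h, hh, hph⟩
        exact (Finset.mem_filter.mp hh).2 (hDisj L g h p hp hph)
      have h3 := h2.union h1 hdisj
      have hsub : frobPrimes L g ∪ {p | ∃ h ∈ C', p ∈ frobPrimes L h} ⊆
          {p | ∃ h ∈ C, p ∈ frobPrimes L h} := by
        rintro p (hp | ⟨h, hh, hph⟩)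
        · exact ⟨g, hg, hp⟩
        · exact ⟨h, (Finset.mem_filter.mp hh).1, hph⟩
      refine (h3.mono hsub).anti ?_
      -- `|C| ≤ |conjugacy class of g| + |C'|`
      have hKle : K.card ≤ Nat.card (conjugatesOf g) := by
        have hfin : (conjugatesOf g).Finite := Set.toFinite _
        have h4 : (K : Set (L ≃ₐ[ℚ] L)) ⊆ conjugatesOf g := by
          intro h hh
          exact (Finset.mem_filter.mp (Finset.mem_coe.mp hh)).2
        have h5 := Set.ncard_le_ncard h4 hfin
        rw [Set.ncard_coe_finset] at h5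
        rw [Nat.card_coe_set_eq]
        exact h5
      have hGpos : (0 : ℝ) < (Nat.card (L ≃ₐ[ℚ] L) : ℝ) := by
        exact_mod_cast (Nat.card_pos : 0 < Nat.card (L ≃ₐ[ℚ] L))
      rw [classDensity, ← add_div]
      apply div_le_div_of_nonneg_right _ hGpos.le
      have h6 : (C.card : ℝ) = (K.card : ℝ) + (C'.card : ℝ) := by
        exact_mod_cast hsplit.symm
      have h7 : (K.card : ℝ) ≤ (Nat.card (conjugatesOf g) : ℝ) := by exact_mod_cast hKle
      linarith

/-- **Q-SET (glue)** -/
theorem chebDensitySetGlue : ChebDensitySetGlueStatement := by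
  classical
  intro hDisj hFin L _ _ _ C
  have hfin : C.Finite := Set.toFinite C
  have h := chebDensity_finset_h993 hDisj hFin L hfin.toFinset.card hfin.toFinset rfl
  have h1 : {p | ∃ g ∈ hfin.toFinset, p ∈ frobPrimes L g} = {p | ∃ g ∈ C, p ∈ frobPrimes L g} := by
    ext p
    constructor
    · rintro ⟨g, hg, hp⟩
      exact ⟨g, (Set.Finite.mem_toFinset hfin).mp hg, hp⟩
    · rintro ⟨g, hg, hp⟩
      exact ⟨g, (Set.Finite.mem_toFinset hfin).mpr hg, hp⟩
  have h2 : (hfin.toFinset.card : ℝ) = (Nat.card ↥C : ℝ) := by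
    rw [Nat.card_coe_set_eq, Set.ncard_eq_toFinset_card C hfin]
  rw [h1, h2] at h
  exact h

end Fermat.Agent.Lib.Cheb.H993
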