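import Mathlib
import Fermat.Agent.Lib.Cheb.SpecQ2
import Fermat.Agent.Lib.Cheb.DensityBasic

/-!
# CHEB-Q piece Q-CYC (glue): `CycSumStatement → CycCountStatement → CycDensityStatement`

In the cyclotomic situation (`ζ_m ∈ L`, `⟨g⟩` faithful on `ζ_m`), with `a = autToPow g`,
`c(p) = primeCount (L^⟨g⟩) p`:  `∑_{p ≡ a} c(p) p^(-s) ≥ (1/ord g) log (1/(s-1)) - C` (Q-SUM) and
`c(p) ≤ |G| / (ord g · |C_g|)`, `c(p) ≠ 0 ⇒ p ∈ frobPrimes L g` (Q-ALG) give lower density
`≥ |C_g| / |G|` for `frobPrimes L g`.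
-/

set_option autoImplicit false

open NumberField

namespace Fermat.Agent.Lib.Cheb.H993

open Fermat.Agent.Lib.Cheb.Spec Fermat.Agent.Lib.Cheb.SpecQ

theorem summable_of_finset_support_h993 {f : Nat.Primes → ℝ} (B : Finset ℕ)
    (h : ∀ p : Nat.Primes, (p : ℕ) ∉ B → f p = 0) : Summable f := by
  apply summable_of_hasFiniteSupport
  have hfin : {p : Nat.Primes | (p : ℕ) ∈ B}.Finite :=
    Set.Finite.preimage (Nat.Primes.coe_nat_injective.injOn) B.finite_toSet
  refine hfin.subset ?_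
  intro p hp
  by_contra hpB
  exact hp (h p hpB)

/-- **Q-CYC** -/
theorem cycDensityGlue : CycDensityGlueStatement := by
  classical
  intro hSum hCount L _ _ _ m ζ hm hζ g hfaith
  have : NeZero m := ⟨hm.ne'⟩
  obtain ⟨C, hC⟩ := hSum L m ζ hζ g hfaith
  obtain ⟨B, hB⟩ := hCount L m ζ hζ g hfaith
  set a : ZMod m := ((hζ.autToPow ℚ g : (ZMod m)ˣ) : ZMod m) with ha
  set c : ℕ → ℕ := fun p =>
    primeCount (IntermediateField.fixedField (Subgroup.zpowers g)) p with hc
  set n : ℕ := orderOf g with hn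
  set cg : ℕ := Nat.card (conjugatesOf g) with hcg
  set G : ℕ := Nat.card (L ≃ₐ[ℚ] L) with hG
  have hnpos : 0 < n := orderOf_pos g
  have hcgpos : 0 < cg := by
    have : Nonempty (conjugatesOf g) := ⟨⟨g, mem_conjugatesOf_self⟩⟩
    exact Nat.card_pos
  have hGpos : 0 < G := Nat.card_pos
  have hnR : (0 : ℝ) < n := by exact_mod_cast hnpos
  have hcgR : (0 : ℝ) < cg := by exact_mod_cast hcgpos
  have hGR : (0 : ℝ) < G := by exact_mod_cast hGpos
  -- the weight
  set w : ℝ := (G : ℝ) / ((n : ℝ) * (cg : ℝ)) with hw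
  have hwpos : 0 < w := div_pos hGR (mul_pos hnR hcgR)
  -- the truncated series
  set f : ℝ → Nat.Primes → ℝ := fun s p =>
    if ((p : ℕ) : ZMod m) = a ∧ (p : ℕ) ∉ B then (c p : ℝ) * ((p : ℕ) : ℝ) ^ (-s) else 0 with hf
  set g₀ : ℝ → Nat.Primes → ℝ := fun s p =>
    if ((p : ℕ) : ZMod m) = a then (c p : ℝ) * ((p : ℕ) : ℝ) ^ (-s) else 0 with hg₀
  set h₀ : Nat.Primes → ℝ := fun p => if (p : ℕ) ∈ B then (c p : ℝ) else 0 with hh₀
  have hterm_nonneg : ∀ (s : ℝ) (p : Nat.Primes), 0 ≤ (c p : ℝ) * ((p : ℕ) : ℝ) ^ (-s) :=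
    fun s p => mul_nonneg (Nat.cast_nonneg _) (rpow_neg_nonneg _ _)
  have hh₀sum : Summable h₀ := by
    apply summable_of_finset_support_h993 B
    intro p hp
    simp only [hh₀, if_neg hp]
  have hfsum : ∀ s : ℝ, 1 < s → s ≤ 2 → Summable (f s) := by
    intro s h1 h2
    refine Summable.of_nonneg_of_le (fun p => ?_) (fun p => ?_) (hC s h1 h2).1
    · simp only [hf]
      split_ifs
      · exact hterm_nonneg s p
      · exact le_rfl
    · simp only [hf]
      split_ifs
      · exact le_rfl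
      · exact hterm_nonneg s p
  have hg₀sum : ∀ s : ℝ, 1 < s → s ≤ 2 → Summable (g₀ s) := by
    intro s h1 h2
    refine Summable.of_nonneg_of_le (fun p => ?_) (fun p => ?_) (hC s h1 h2).1
    · simp only [hg₀]
      split_ifs
      · exact hterm_nonneg s p
      · exact le_rfl
    · simp only [hg₀]
      split_ifs
      · exact le_rfl
      · exact hterm_nonneg s p
  have hdens : (n : ℝ)⁻¹ / w = classDensity L g := by
    rw [hw, classDensity, ← hcg, ← hG]
    field_simp
  rw [← hdens]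
  refine hasLowerDensity_of_tsum (X := frobPrimes L g) (d' := (n : ℝ)⁻¹) (w := w)
    (K := C + ∑' p, h₀ p) hwpos f hfsum ?_ ?_ ?_
  · -- `f s p ≤ w * p^(-s)`
    intro s h1 h2 p
    simp only [hf]
    split_ifs with hcond
    · by_cases hcp : c p = 0
      · rw [hcp, Nat.cast_zero, zero_mul]
        exact mul_nonneg hwpos.le (rpow_neg_nonneg _ _)
      · have h3 := (hB p p.2 hcond.2 hcond.1 hcp).2
        have h4 : (c p : ℝ) * (n : ℝ) * (cg : ℝ) ≤ (G : ℝ) := by exact_mod_cast h3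
        have h5 : (c p : ℝ) ≤ w := by
          rw [hw, le_div_iff₀ (mul_pos hnR hcgR)]
          linarith
        exact mul_le_mul_of_nonneg_right h5 (rpow_neg_nonneg _ _)
    · exact mul_nonneg hwpos.le (rpow_neg_nonneg _ _)
  · -- `f` vanishes off `frobPrimes`
    intro s h1 h2 p hp
    simp only [hf]
    split_ifs with hcond
    · by_cases hcp : c p = 0
      · rw [hcp, Nat.cast_zero, zero_mul]
      · exact absurd (hB p p.2 hcond.2 hcond.1 hcp).1 hp
    · exact le_rfl
  · -- the lower bound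
    intro s h1 h2
    have h3 := (hC s h1 h2).2
    have hspos : 0 < s := by linarith
    have h4 : ∀ p : Nat.Primes, g₀ s p ≤ f s p + h₀ p := by
      intro p
      simp only [hg₀, hf, hh₀]
      by_cases hpa : ((p : ℕ) : ZMod m) = a
      · by_cases hpB : (p : ℕ) ∈ B
        · rw [if_pos hpa, if_neg (fun h => h.2 hpB), if_pos hpB, zero_add]
          calc (c p : ℝ) * ((p : ℕ) : ℝ) ^ (-s) ≤ (c p : ℝ) * 1 :=
                mul_le_mul_of_nonneg_left (rpow_neg_le_one _ hspos) (Nat.cast_nonneg _)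
            _ = (c p : ℝ) := mul_one _
        · rw [if_pos hpa, if_pos ⟨hpa, hpB⟩, if_neg hpB, add_zero]
      · rw [if_neg hpa, if_neg (fun h => hpa h.1)]
        split_ifs
        · simp
        · simp
    have h5 : ∑' p, g₀ s p ≤ ∑' p, (f s p + h₀ p) :=
      (hg₀sum s h1 h2).tsum_le_tsum h4 ((hfsum s h1 h2).add hh₀sum)
    rw [(hfsum s h1 h2).tsum_add hh₀sum] at h5
    have h6 : ∑' p, g₀ s p = ∑' p : Nat.Primes,
        if ((p : ℕ) : ZMod m) = ((hζ.autToPow ℚ g : (ZMod m)ˣ) : ZMod m)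
          then (primeCount (IntermediateField.fixedField (Subgroup.zpowers g)) p : ℝ) *
            ((p : ℕ) : ℝ) ^ (-s)
          else 0 := rfl
    rw [h6] at h5
    linarith

end Fermat.Agent.Lib.Cheb.H993
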