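import Mathlib
import Fermat.Agent.Lib.Cheb.SpecQ2
import Fermat.Agent.Lib.Cheb.DensityBasic
import Fermat.Agent.Lib.Cheb.H993.QCyc
import Fermat.Agent.Lib.ChebQ.Spec

/-!
# CHEB-Q: adapters between `Lib/Cheb/SpecQ*.lean` (helper993) and `Lib/ChebQ/Spec.lean` (helper968)

* `cycDensity968_of` : `SpecQ.CycSumStatement → SpecQ.CycCountStatement →
  ChebQ.Spec.CycDensityStatement` (the `O(1)`-form needed by `ChebQ.H968.crossDensity`);
* `chebDensityFinite_of_968` : `ChebQ.Spec.ChebDensityStatement → SpecQ.ChebDensityFiniteStatement`;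
* `client968_of` : `SpecQ.ChebDensityStatement → ChebQ.Spec.ChebDensityClientStatement`.
-/

set_option autoImplicit false

open NumberField

namespace Fermat.Agent.Lib.Cheb.H993

open Fermat.Agent.Lib.Cheb.Spec Fermat.Agent.Lib.Cheb.SpecQ

/-- orbit–stabiliser for conjugation -/
theorem card_conjugatesOf_mul_card_centralizer_h993 {G : Type*} [Group G] [Finite G] (g : G) :
    Nat.card (conjugatesOf g) * Nat.card (Subgroup.centralizer ({g} : Set G)) = Nat.card G := by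
  classical
  cases nonempty_fintype G
  rw [Subgroup.nat_card_centralizer_nat_card_stabilizer]
  have horb : MulAction.orbit (ConjAct G) g = conjugatesOf g := by
    ext h
    rw [ConjAct.mem_orbit_conjAct, isConj_comm]
    rfl
  letI : Fintype (ConjAct G) := Fintype.ofFinite _
  letI : Fintype (MulAction.orbit (ConjAct G) g) := Fintype.ofFinite _
  letI : Fintype (MulAction.stabilizer (ConjAct G) g) := Fintype.ofFinite _
  have h := MulAction.card_orbit_mul_card_stabilizer_eq_card_group (ConjAct G) g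
  rw [← Nat.card_eq_fintype_card, ← Nat.card_eq_fintype_card, ← Nat.card_eq_fintype_card] at h
  rw [← horb]
  exact h

theorem classDensity_eq_inv_h993 (L : Type) [Field L] [NumberField L] (g : L ≃ₐ[ℚ] L) :
    classDensity L g =
      (Nat.card (Subgroup.centralizer ({g} : Set (L ≃ₐ[ℚ] L))) : ℝ)⁻¹ := by
  have h := card_conjugatesOf_mul_card_centralizer_h993 g
  have hZ : (0 : ℝ) < (Nat.card (Subgroup.centralizer ({g} : Set (L ≃ₐ[ℚ] L))) : ℝ) := by
    exact_mod_cast (Nat.card_pos : 0 < Nat.card (Subgroup.centralizer ({g} : Set (L ≃ₐ[ℚ] L))))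
  have hG : (0 : ℝ) < (Nat.card (L ≃ₐ[ℚ] L) : ℝ) := by
    exact_mod_cast (Nat.card_pos : 0 < Nat.card (L ≃ₐ[ℚ] L))
  have h' : (Nat.card (conjugatesOf g) : ℝ) *
      (Nat.card (Subgroup.centralizer ({g} : Set (L ≃ₐ[ℚ] L))) : ℝ) =
      (Nat.card (L ≃ₐ[ℚ] L) : ℝ) := by exact_mod_cast h
  rw [classDensity, div_eq_iff hG.ne', ← h']
  field_simp

/-- `O(1)`-form of `hasLowerDensity_of_tsum`. -/
theorem exists_finset_of_tsum_h993 {X : Set ℕ} {d' w K : ℝ} (hw : 0 < w)
    (f : ℝ → Nat.Primes → ℝ)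
    (hsum : ∀ s : ℝ, 1 < s → s ≤ 2 → Summable (f s))
    (hle : ∀ s : ℝ, 1 < s → s ≤ 2 → ∀ p : Nat.Primes, f s p ≤ w * ((p : ℕ) : ℝ) ^ (-s))
    (hX : ∀ s : ℝ, 1 < s → s ≤ 2 → ∀ p : Nat.Primes, (p : ℕ) ∉ X → f s p ≤ 0)
    (hbound : ∀ s : ℝ, 1 < s → s ≤ 2 → d' * Real.log (1 / (s - 1)) - K ≤ ∑' p, f s p) :
    ∀ s : ℝ, 1 < s → s ≤ 2 → ∃ T : Finset ℕ, (∀ p ∈ T, p ∈ X) ∧
      d' / w * Real.log (1 / (s - 1)) - (K + 1) / w ≤ ∑ p ∈ T, (p : ℝ) ^ (-s) := by
  classical
  intro s h1 h2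
  have hS := (hsum s h1 h2).hasSum
  have hev := hS.eventually (lt_mem_nhds (show ∑' p, f s p - 1 < ∑' p, f s p by linarith))
  obtain ⟨F, hF⟩ := hev.exists
  set F' : Finset Nat.Primes := F.filter (fun p => (p : ℕ) ∈ X) with hF'
  have h3 : ∑ p ∈ F, f s p ≤ ∑ p ∈ F', f s p := by
    rw [hF', Finset.sum_filter]
    apply Finset.sum_le_sum
    intro p _
    split_ifs with hp
    · exact le_rfl
    · exact hX s h1 h2 p hp
  have h4 : ∑ p ∈ F', f s p ≤ w * ∑ p ∈ F', ((p : ℕ) : ℝ) ^ (-s) := by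
    rw [Finset.mul_sum]
    exact Finset.sum_le_sum fun p _ => hle s h1 h2 p
  refine ⟨F'.image (fun p : Nat.Primes => (p : ℕ)), fun p hp => ?_, ?_⟩
  · obtain ⟨q, hq, rfl⟩ := Finset.mem_image.mp hp
    rw [hF', Finset.mem_filter] at hq
    exact hq.2
  · have himg : ∑ p ∈ F'.image (fun p : Nat.Primes => (p : ℕ)), (p : ℝ) ^ (-s) =
        ∑ p ∈ F', ((p : ℕ) : ℝ) ^ (-s) :=
      Finset.sum_image (f := fun n : ℕ => (n : ℝ) ^ (-s)) (g := fun p : Nat.Primes => (p : ℕ))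
        (fun a _ b _ hab => Nat.Primes.coe_nat_injective hab)
    rw [himg]
    have h5 := hbound s h1 h2
    have h6 : d' * Real.log (1 / (s - 1)) - (K + 1) ≤ w * ∑ p ∈ F', ((p : ℕ) : ℝ) ^ (-s) := by
      linarith
    have h7 : d' / w * Real.log (1 / (s - 1)) - (K + 1) / w =
        (d' * Real.log (1 / (s - 1)) - (K + 1)) / w := by ring
    rw [h7, div_le_iff₀ hw]
    linarith

/-- `O(1)`-form of Q-CYC. -/
theorem cycBound_h993 (hSum : CycSumStatement) (hCount : CycCountStatement)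
    (L : Type) [Field L] [NumberField L] [IsGalois ℚ L] (m : ℕ) (ζ : L) (hm : 0 < m)
    (hζ : IsPrimitiveRoot ζ m) (g : L ≃ₐ[ℚ] L) (hfaith : ∀ k : ℕ, (g ^ k) ζ = ζ → g ^ k = 1) :
    ∃ K : ℝ, ∀ s : ℝ, 1 < s → s ≤ 2 → ∃ T : Finset ℕ, (∀ p ∈ T, p ∈ frobPrimes L g) ∧
      classDensity L g * Real.log (1 / (s - 1)) - K ≤ ∑ p ∈ T, (p : ℝ) ^ (-s) := by
  classical
  have : NeZero m := ⟨hm.ne'⟩
  obtain ⟨C, hC⟩ := hSum L m ζ hζ g hfaith
  obtain ⟨B, hB⟩ := hCount L m ζ hζ g hfaith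
  set a : ZMod m := ((hζ.autToPow ℚ g : (ZMod m)ˣ) : ZMod m) with ha
  set c : ℕ → ℕ := fun p =>
    primeCount (IntermediateField.fixedField (Subgroup.zpowers g)) p with hc
  set n : ℕ := orderOf g with hn
  set cg : ℕ := Nat.card (conjugatesOf g) with hcg
  set G : ℕ := Nat.card (L ≃ₐ[ℚ] L) with hG
  have hnpos : 0 < n := orderOf_pos g
  have hcgpos : 0 < cg := by
    have : Nonempty (conjugatesOf g) := ⟨⟨g, mem_conjugatesOf_self⟩⟩
    exact Nat.card_pos
  have hGpos : 0 < G := Nat.card_pos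
  have hnR : (0 : ℝ) < n := by exact_mod_cast hnpos
  have hcgR : (0 : ℝ) < cg := by exact_mod_cast hcgpos
  have hGR : (0 : ℝ) < G := by exact_mod_cast hGpos
  set w : ℝ := (G : ℝ) / ((n : ℝ) * (cg : ℝ)) with hw
  have hwpos : 0 < w := div_pos hGR (mul_pos hnR hcgR)
  set f : ℝ → Nat.Primes → ℝ := fun s p =>
    if ((p : ℕ) : ZMod m) = a ∧ (p : ℕ) ∉ B then (c p : ℝ) * ((p : ℕ) : ℝ) ^ (-s) else 0 with hf
  set g₀ : ℝ → Nat.Primes → ℝ := fun s p =>
    if ((p : ℕ) : ZMod m) = a then (c p : ℝ) * ((p : ℕ) : ℝ) ^ (-s) else 0 with hg₀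
  set h₀ : Nat.Primes → ℝ := fun p => if (p : ℕ) ∈ B then (c p : ℝ) else 0 with hh₀
  have hterm_nonneg : ∀ (s : ℝ) (p : Nat.Primes), 0 ≤ (c p : ℝ) * ((p : ℕ) : ℝ) ^ (-s) :=
    fun s p => mul_nonneg (Nat.cast_nonneg _) (rpow_neg_nonneg _ _)
  have hh₀sum : Summable h₀ := by
    apply summable_of_finset_support_h993 B
    intro p hp
    simp only [hh₀, if_neg hp]
  have hfsum : ∀ s : ℝ, 1 < s → s ≤ 2 → Summable (f s) := by
    intro s h1 h2
    refine Summable.of_nonneg_of_le (fun p => ?_) (fun p => ?_) (hC s h1 h2).1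
    · simp only [hf]
      split_ifs
      · exact hterm_nonneg s p
      · exact le_rfl
    · simp only [hf]
      split_ifs
      · exact le_rfl
      · exact hterm_nonneg s p
  have hg₀sum : ∀ s : ℝ, 1 < s → s ≤ 2 → Summable (g₀ s) := by
    intro s h1 h2
    refine Summable.of_nonneg_of_le (fun p => ?_) (fun p => ?_) (hC s h1 h2).1
    · simp only [hg₀]
      split_ifs
      · exact hterm_nonneg s p
      · exact le_rfl
    · simp only [hg₀]
      split_ifs
      · exact le_rfl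
      · exact hterm_nonneg s p
  have hdens : (n : ℝ)⁻¹ / w = classDensity L g := by
    rw [hw, classDensity, ← hcg, ← hG]
    field_simp
  rw [← hdens]
  refine ⟨(C + ∑' p, h₀ p + 1) / w, ?_⟩
  refine exists_finset_of_tsum_h993 (X := frobPrimes L g) (d' := (n : ℝ)⁻¹) (w := w)
    (K := C + ∑' p, h₀ p) hwpos f hfsum ?_ ?_ ?_
  · intro s h1 h2 p
    simp only [hf]
    split_ifs with hcond
    · by_cases hcp : c p = 0
      · rw [hcp, Nat.cast_zero, zero_mul]
        exact mul_nonneg hwpos.le (rpow_neg_nonneg _ _)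
      · have h3 := (hB p p.2 hcond.2 hcond.1 hcp).2
        have h4 : (c p : ℝ) * (n : ℝ) * (cg : ℝ) ≤ (G : ℝ) := by exact_mod_cast h3
        have h5 : (c p : ℝ) ≤ w := by
          rw [hw, le_div_iff₀ (mul_pos hnR hcgR)]
          linarith
        exact mul_le_mul_of_nonneg_right h5 (rpow_neg_nonneg _ _)
    · exact mul_nonneg hwpos.le (rpow_neg_nonneg _ _)
  · intro s h1 h2 p hp
    simp only [hf]
    split_ifs with hcond
    · by_cases hcp : c p = 0
      · rw [hcp, Nat.cast_zero, zero_mul]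
      · exact absurd (hB p p.2 hcond.2 hcond.1 hcp).1 hp
    · exact le_rfl
  · intro s h1 h2
    have h3 := (hC s h1 h2).2
    have hspos : 0 < s := by linarith
    have h4 : ∀ p : Nat.Primes, g₀ s p ≤ f s p + h₀ p := by
      intro p
      simp only [hg₀, hf, hh₀]
      by_cases hpa : ((p : ℕ) : ZMod m) = a
      · by_cases hpB : (p : ℕ) ∈ B
        · rw [if_pos hpa, if_neg (fun h => h.2 hpB), if_pos hpB, zero_add]
          calc (c p : ℝ) * ((p : ℕ) : ℝ) ^ (-s) ≤ (c p : ℝ) * 1 :=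
                mul_le_mul_of_nonneg_left (rpow_neg_le_one _ hspos) (Nat.cast_nonneg _)
            _ = (c p : ℝ) := mul_one _
        · rw [if_pos hpa, if_pos ⟨hpa, hpB⟩, if_neg hpB, add_zero]
      · rw [if_neg hpa, if_neg (fun h => hpa h.1)]
        split_ifs
        · simp
        · simp
    have h5 : ∑' p, g₀ s p ≤ ∑' p, (f s p + h₀ p) :=
      (hg₀sum s h1 h2).tsum_le_tsum h4 ((hfsum s h1 h2).add hh₀sum)
    rw [(hfsum s h1 h2).tsum_add hh₀sum] at h5
    have h6 : ∑' p, g₀ s p = ∑' p : Nat.Primes,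
        if ((p : ℕ) : ZMod m) = ((hζ.autToPow ℚ g : (ZMod m)ˣ) : ZMod m)
          then (primeCount (IntermediateField.fixedField (Subgroup.zpowers g)) p : ℝ) *
            ((p : ℕ) : ℝ) ^ (-s)
          else 0 := rfl
    rw [h6] at h5
    linarith

/-- Q-CYC in helper968's `O(1)`/centralizer shape. -/
theorem cycDensity968_of (hSum : CycSumStatement) (hCount : CycCountStatement) :
    Fermat.Agent.Lib.ChebQ.Spec.CycDensityStatement := by
  intro L _ _ _ m ζ hm hζ g hfaith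
  obtain ⟨K, hK⟩ := cycBound_h993 hSum hCount L m ζ hm hζ g hfaith
  refine ⟨K, fun s h1 h2 => ?_⟩
  obtain ⟨T, hT, hsum⟩ := hK s h1 h2
  refine ⟨T, fun p hp => hT p hp, ?_⟩
  rw [← classDensity_eq_inv_h993]
  exact hsum

/-- helper968's finite-level statement gives `SpecQ.ChebDensityFiniteStatement`. -/
theorem chebDensityFinite_of_968 (h : Fermat.Agent.Lib.ChebQ.Spec.ChebDensityStatement) :
    ChebDensityFiniteStatement := by
  intro L _ _ _ g
  apply hasLowerDensity_of_forall_lt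
  intro d' hd'
  obtain ⟨K, hK⟩ := h L g (classDensity L g - d') (by linarith)
  apply hasLowerDensity_of_bound (K := K)
  intro s h1 h2
  obtain ⟨T, hT, hsum⟩ := hK s h1 h2
  refine ⟨T, fun p hp => hT (Finset.mem_coe.mpr hp), ?_⟩
  rw [← classDensity_eq_inv_h993] at hsum
  have : classDensity L g - (classDensity L g - d') = d' := by ring
  rw [this] at hsum
  exact hsum

/-- helper968's client statement (Deligne–Serre Lemma 8.4 input) from `SpecQ.ChebDensityStatement`. -/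
theorem client968_of (h : ChebDensityStatement) :
    Fermat.Agent.Lib.ChebQ.Spec.ChebDensityClientStatement := by
  intro G _ _ ρ hρ C _ X η hX hmem
  obtain ⟨E, hE, hker⟩ := hρ
  have h1 := h G ρ E hE hker C ∅
  obtain ⟨K, hK⟩ := hX
  have hsub : frobPrimesHom ρ C ∅ ⊆ X := by
    rintro p ⟨hp, -, A, τ, hA, hτ, -, hC⟩
    exact hmem p A τ hp hA hτ hC
  have h2 := (h1.mono hsub).le_of_bound (u := η) (K := K)
    (fun s hs1 hs2 T hT => hK s hs1 hs2 T (fun p hp => hT p (Finset.mem_coe.mp hp)))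
  have hpos : (0 : ℝ) < (Nat.card ↥(Set.range ρ) : ℝ) := by
    have : Nonempty ↥(Set.range ρ) := ⟨⟨1, ⟨1, map_one ρ⟩⟩⟩
    exact_mod_cast (Nat.card_pos : 0 < Nat.card ↥(Set.range ρ))
  rwa [div_le_iff₀ hpos] at h2

end Fermat.Agent.Lib.Cheb.H993
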